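import Fermat.Agent.S15.W.Nondeg

/-!
# S43 / ND : the Weil pairing `e1K` on `Kum K F e` is non degenerate for EVERY exponent `e ≠ 0`

(`S15.W.e1K_nondeg` is stated for `e` prime only; the abstract computation
`S15.W.exists_e1_ne_one_of_cover` works for all `e`, so only the cover has to be generalised:
`F' =` splitting field of `X^e - f`, `φ` a root, `τ` a Galois automorphism moving `φ`.)

* `exists_cover_gen`, `exists_e1_ne_one_gen`, `e1K_nondeg_gen`;
* `eq_zero_of_e1K` : `(∀ b, e1K a b = 1) → a = 0`, and the right handed version.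
-/

set_option autoImplicit false

namespace Fermat.Agent.S43.ND

open AlgebraicCurve Fermat.Agent.S26 Fermat.Agent.S37.Red Fermat.Agent.S48.B1 Fermat.Agent.S15.W

universe u

variable {K : Type*} {F : Type u} [Field K] [Field F] [Algebra K F] [IsAlgClosed K] [CharZero K]
  [FF1 K F]

open Polynomial in
/-- the Kummer cover for a general exponent. -/
theorem exists_cover_gen {e : ℕ} (he : e ≠ 0) {f : F} (hf : ∀ h : F, h ^ e ≠ f) :
    ∃ (F' : Type u) (_ : Field F') (_ : Algebra K F') (_ : Algebra F F') (_ : IsScalarTower K F F')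
      (_ : Module.Finite F F') (_ : FF1 K F') (φ : F') (τ : F' ≃ₐ[F] F') (ζ : K),
      φ ^ e = algebraMap F F' f ∧ ζ ≠ 0 ∧ ζ ≠ 1 ∧ τ φ = algebraMap K F' ζ * φ := by
  classical
  have hchar : CharZero F := charZero_of_injective_algebraMap (algebraMap K F).injective
  set P : F[X] := X ^ e - C f with hP
  have hdeg : P.degree ≠ 0 := by
    rw [hP, degree_X_pow_sub_C (Nat.pos_of_ne_zero he)]
    exact_mod_cast he
  have hP0 : P ≠ 0 := X_pow_sub_C_ne_zero (Nat.pos_of_ne_zero he) f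
  have : FF1 K P.SplittingField := Sq.ff1_of_finite K F _
  have hgal : IsGalois F P.SplittingField :=
    { to_isSeparable := Algebra.IsSeparable.of_integral F P.SplittingField
      to_normal := inferInstance }
  obtain ⟨φ, hφ⟩ : ∃ φ : P.SplittingField, aeval φ P = 0 := by
    have hs := SplittingField.splits P
    have hd : (P.map (algebraMap F P.SplittingField)).degree ≠ 0 := by
      rw [degree_map]; exact hdeg
    obtain ⟨φ, hφ⟩ := hs.exists_eval_eq_zero hd
    exact ⟨φ, by rwa [eval_map_algebraMap] at hφ⟩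
  have hφe : φ ^ e = algebraMap F P.SplittingField f := by
    have h2 : aeval φ (X ^ e - C f : F[X]) = 0 := hφ
    rw [map_sub, map_pow, aeval_X, aeval_C, sub_eq_zero] at h2
    exact h2
  have hf0 : f ≠ 0 := by
    rintro rfl
    exact hf 0 (zero_pow he)
  have hφ0 : φ ≠ 0 := by
    rintro rfl
    rw [zero_pow he] at hφe
    exact hf0 ((map_eq_zero _).1 hφe.symm)
  -- `φ ∉ F`
  have hnot : φ ∉ (⊥ : IntermediateField F P.SplittingField) := by
    intro h
    obtain ⟨x, rfl⟩ := IntermediateField.mem_bot.1 h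
    rw [← map_pow] at hφe
    exact hf x ((algebraMap F P.SplittingField).injective hφe)
  obtain ⟨τ, hτ⟩ : ∃ τ : P.SplittingField ≃ₐ[F] P.SplittingField, τ φ ≠ φ := by
    by_contra hcon
    push Not at hcon
    exact hnot ((IsGalois.mem_bot_iff_fixed φ).2 hcon)
  have : NeZero (e : K) := ⟨by exact_mod_cast he⟩
  have : NeZero e := ⟨he⟩
  obtain ⟨ζ₀, hζ₀⟩ := HasEnoughRootsOfUnity.exists_primitiveRoot K e
  have hζ' : IsPrimitiveRoot (algebraMap K P.SplittingField ζ₀) e :=
    hζ₀.map_of_injective (algebraMap K P.SplittingField).injective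
  have h1 : (τ φ / φ) ^ e = 1 := by
    rw [div_pow, ← map_pow, hφe, AlgEquiv.commutes, div_self]
    rw [Ne, map_eq_zero]; exact hf0
  obtain ⟨i, -, hi⟩ := hζ'.eq_pow_of_pow_eq_one h1
  refine ⟨P.SplittingField, inferInstance, inferInstance, inferInstance, inferInstance,
    inferInstance, inferInstance, φ, τ, ζ₀ ^ i, hφe, pow_ne_zero _ (hζ₀.ne_zero he), ?_, ?_⟩
  · intro h
    apply hτ
    rw [← map_pow, h, map_one] at hi
    field_simp at hi
    exact hi.symm
  · rw [map_pow, hi]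
    field_simp

theorem exists_e1_ne_one_gen {e : ℕ} (he : e ≠ 0) (j : K →+* ℂ) {f : F} (hf : IsDm K e f)
    (hf' : ∀ h : F, h ^ e ≠ f) : ∃ g : F, IsDm K e g ∧ e1 K e f g ≠ 1 := by
  obtain ⟨F', _, _, _, _, _, _, φ, τ, ζ, hφ, hζ, hζ1, hτ⟩ := exists_cover_gen (K := K) he hf'
  exact exists_e1_ne_one_of_cover he
    (fun x => Fermat.Agent.S17.G.pic0_divisible K F' j e (Nat.pos_of_ne_zero he) x) hf hφ τ hζ hζ1 hτ

/-- **non degeneracy for every exponent**. -/
theorem e1K_nondeg_gen {e : ℕ} (he : e ≠ 0) (j : K →+* ℂ) {a : Kum K F e} (ha : a ≠ 0) :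
    ∃ b : Kum K F e, e1K a b ≠ 1 := by
  obtain ⟨f, rfl⟩ := Kum.mk_surjective a
  have hf' : ∀ h : F, h ^ e ≠ ((f : Fˣ) : F) := by
    intro h hh
    apply ha
    rw [Kum.mk_eq_zero_iff]
    have h0 : h ≠ 0 := by
      rintro rfl
      rw [zero_pow he] at hh
      exact (f : Fˣ).ne_zero hh.symm
    exact ⟨Units.mk0 h h0, Units.ext (by rw [Units.val_pow_eq_pow_val, Units.val_mk0, hh])⟩
  obtain ⟨g, hg, hne⟩ := exists_e1_ne_one_gen he j (isDm_coe f) hf'
  refine ⟨Kum.mk ⟨Units.mk0 g hg.1, fun P => hg.2 P⟩, ?_⟩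
  rw [e1K_mk he]
  exact hne

theorem eq_zero_of_e1K_left {e : ℕ} (he : e ≠ 0) (j : K →+* ℂ) {a : Kum K F e}
    (h : ∀ b : Kum K F e, e1K a b = 1) : a = 0 := by
  by_contra ha
  obtain ⟨b, hb⟩ := e1K_nondeg_gen he j ha
  exact hb (h b)

theorem eq_zero_of_e1K_right {e : ℕ} (he : e ≠ 0) (j : K →+* ℂ) {a : Kum K F e}
    (h : ∀ b : Kum K F e, e1K b a = 1) : a = 0 :=
  eq_zero_of_e1K_left he j fun b => (e1K_eq_one_comm he b a).1 (h b)

end Fermat.Agent.S43.ND
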